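import Mathlib

/-!
# S24 helper: growth of `j = E₄³/Δ` at `i∞`, Hermite reduction of `j(d·γτ)`, and the
consequence that `j(N·δτ) = j(Nτ)` forces `δ ∈ Γ₀(N)`.

Mathlib-only.
-/

set_option autoImplicit false

open UpperHalfPlane ModularForm EisensteinSeries MatrixGroups CongruenceSubgroup Filter Complex
open scoped Manifold Topology Real

namespace Fermat.Agent.S24

namespace H9157

local notation "Δ" => ModularForm.discriminant
local notation "𝕢" => Function.Periodic.qParam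

/-- The analytic `j`-function `E₄³/Δ`. -/
noncomputable def jj (τ : ℍ) : ℂ := E₄ τ ^ 3 / Δ τ

lemma jj_def (τ : ℍ) : jj τ = E₄ τ ^ 3 / Δ τ := rfl

lemma mdiff_jj : MDiff jj :=
  ((E₄.holo' : MDiff (E₄ : ℍ → ℂ)).pow 3).div
    (CuspForm.discriminant.holo' : MDiff (Δ : ℍ → ℂ)) discriminant_ne_zero

lemma tendsto_E4 : Tendsto (fun τ : ℍ => (E₄ τ : ℂ)) atImInfty (𝓝 1) := by
  have hh : (0 : ℝ) < 1 := one_pos
  have hΓ := one_mem_strictPeriods_SL
  have hanal := ModularFormClass.analyticAt_cuspFunction_zero E₄ hh hΓ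
  have hper := SlashInvariantFormClass.periodic_comp_ofComplex E₄ hΓ
  have h0 : cuspFunction 1 E₄ 0 = 1 := by
    rw [cuspFunction_apply_zero hh hanal hper, ← qExpansion_coeff_zero hh hanal hper]
    exact E_qExpansion_coeff_zero _ ⟨2, rfl⟩
  rw [← h0]
  exact (hanal.continuousAt.tendsto.comp (qParam_tendsto_atImInfty hh)).congr
    (fun τ ↦ SlashInvariantFormClass.eq_cuspFunction E₄ τ hΓ hh.ne')

lemma tendsto_jj_mul_q : Tendsto (fun τ : ℍ => jj τ * 𝕢 1 τ) atImInfty (𝓝 1) := by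
  have h1 := tendsto_atImInfty_tprod_one_sub_eta_q_pow
  have h2 : Tendsto (fun τ : ℍ => (E₄ τ : ℂ) ^ 3 / ∏' (n : ℕ), (1 - eta_q n τ) ^ 24)
      atImInfty (𝓝 (1 ^ 3 / 1)) := (tendsto_E4.pow 3).div h1 one_ne_zero
  simp only [one_pow, div_one] at h2
  refine h2.congr' (Filter.Eventually.of_forall fun τ => ?_)
  have hq : 𝕢 1 (τ : ℂ) ≠ 0 := by simp [Function.Periodic.qParam]
  have hΔ := discriminant_ne_zero τ
  rw [discriminant_eq_q_prod] at hΔ
  have hP : (∏' (n : ℕ), (1 - eta_q n (τ : ℂ)) ^ 24) ≠ 0 := right_ne_zero_of_mul hΔ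
  show _ = jj τ * 𝕢 1 (τ : ℂ)
  rw [jj_def, discriminant_eq_q_prod]
  field_simp

lemma tendsto_norm_jj_mul_exp :
    Tendsto (fun τ : ℍ => ‖jj τ‖ * Real.exp (-2 * π * τ.im)) atImInfty (𝓝 1) := by
  have h := tendsto_jj_mul_q.norm
  simp only [norm_one] at h
  refine h.congr' (Filter.Eventually.of_forall fun τ => ?_)
  rw [norm_mul, Function.Periodic.norm_qParam]
  simp

/-- Coordinates of the action of `SL(2,ℤ)` in terms of integer entries. -/
lemma coe_SL_smul (γ : SL(2, ℤ)) (τ : ℍ) :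
    ((γ • τ : ℍ) : ℂ) = ((γ 0 0 : ℂ) * τ + (γ 0 1 : ℂ)) / ((γ 1 0 : ℂ) * τ + (γ 1 1 : ℂ)) := by
  rw [coe_specialLinearGroup_apply]
  simp

lemma SL_denom_ne_zero (γ : SL(2, ℤ)) (τ : ℍ) : ((γ 1 0 : ℂ) * τ + (γ 1 1 : ℂ)) ≠ 0 := by
  have h := denom_ne_zero (γ : GL (Fin 2) ℝ) τ
  simpa [denom] using h

lemma hermite_alg (a b c e x y c' D' g d B σ τ : ℂ) (hc : c = g * c') (hd : d = g * D')
    (hxy : x * (D' * a) + y * c' = 1) (hdet : a * e - b * c = 1) (hB : B = x * d * b + y * e)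
    (hw : c * τ + e ≠ 0) (hσ : σ = d * ((a * τ + b) / (c * τ + e)))
    (hden : -c' * σ + D' * a ≠ 0) (hD : D' ≠ 0) :
    (x * σ + y) / (-c' * σ + D' * a) = (g * τ + B) / D' := by
  have hσw : σ * (c * τ + e) = d * (a * τ + b) := by
    rw [hσ, mul_assoc, div_mul_cancel₀ _ hw]
  subst hc hd hB
  rw [div_eq_div_iff hden hD]
  apply mul_right_cancel₀ hw
  linear_combination (D' * x + (g * τ + (x * (g * D') * b + y * e)) * c') * hσw
    + D' * g * τ * hxy - (g * τ + (x * (g * D') * b + y * e)) * D' * hdet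

/-- **Hermite reduction.** For `d > 0` and `γ ∈ SL(2,ℤ)` there are `γ₀ ∈ SL(2,ℤ)`, positive
`g, D` with `g * D = d`, `g = gcd (γ 1 0) d`, and an integer `B` such that
`γ₀ • (d * (γ • τ)) = (g τ + B) / D` for all `τ`. -/
theorem exists_hermite (d : ℕ) (hd : 0 < d) (γ : SL(2, ℤ)) :
    ∃ (γ₀ : SL(2, ℤ)) (g D : ℕ) (B : ℤ), 0 < g ∧ 0 < D ∧ g * D = d ∧
      g = Int.gcd (γ 1 0) d ∧
      ∀ (τ σ : ℍ), (σ : ℂ) = d * ((γ • τ : ℍ) : ℂ) →
        ((γ₀ • σ : ℍ) : ℂ) = ((g : ℂ) * τ + (B : ℂ)) / (D : ℂ) := by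
  set a := γ 0 0 with ha
  set b := γ 0 1 with hb
  set c := γ 1 0 with hc
  set e := γ 1 1 with he
  have hdet : a * e - b * c = 1 := by
    have h := γ.det_coe
    rw [Matrix.det_fin_two] at h
    exact h
  set g := Int.gcd c d with hg
  have hgpos : 0 < g := Int.gcd_pos_of_ne_zero_right _ (by exact_mod_cast hd.ne')
  have hgposZ : (0 : ℤ) < (g : ℤ) := by exact_mod_cast hgpos
  obtain ⟨c', hc'⟩ : (g : ℤ) ∣ c := Int.gcd_dvd_left c d
  obtain ⟨D', hD'⟩ : (g : ℤ) ∣ (d : ℤ) := Int.gcd_dvd_right c d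
  have hD'pos : 0 < D' := by
    have h1 : (0 : ℤ) < (g : ℤ) * D' := by rw [← hD']; exact_mod_cast hd
    exact (mul_pos_iff_of_pos_left hgposZ).mp h1
  have hcop1 : IsCoprime D' c' := by
    rw [Int.isCoprime_iff_gcd_eq_one]
    have h1 : Int.gcd c d = g * Int.gcd c' D' := by
      rw [hc', hD', Int.gcd_mul_left]; simp
    have h2 : g * Int.gcd c' D' = g * 1 := by rw [← h1, mul_one]
    have h3 := Nat.eq_of_mul_eq_mul_left hgpos h2
    rw [Int.gcd_comm]; exact h3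
  have hcop2 : IsCoprime a c' := ⟨e, -(b * g), by rw [hc'] at hdet; linarith⟩
  obtain ⟨x, y, hxy⟩ : IsCoprime (D' * a) c' := IsCoprime.mul_left hcop1 hcop2
  let γ₀ : SL(2, ℤ) := ⟨!![x, y; -c', D' * a], by rw [Matrix.det_fin_two_of]; linarith⟩
  refine ⟨γ₀, g, D'.toNat, x * d * b + y * e, hgpos, by omega, ?_, rfl, ?_⟩
  · have h1 : ((g * D'.toNat : ℕ) : ℤ) = (d : ℤ) := by
      push_cast
      rw [Int.toNat_of_nonneg hD'pos.le, ← hD']
    exact_mod_cast h1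
  · intro τ σ hσ
    have hDcast : ((D'.toNat : ℕ) : ℂ) = (D' : ℂ) := by
      have : ((D'.toNat : ℕ) : ℤ) = D' := Int.toNat_of_nonneg hD'pos.le
      exact_mod_cast congrArg (fun z : ℤ => (z : ℂ)) this
    rw [hDcast, coe_SL_smul γ₀ σ]
    have hden := SL_denom_ne_zero γ₀ σ
    have hw := SL_denom_ne_zero γ τ
    rw [coe_SL_smul γ τ] at hσ
    have e00 : (γ₀ 0 0 : ℤ) = x := rfl
    have e01 : (γ₀ 0 1 : ℤ) = y := rfl
    have e10 : (γ₀ 1 0 : ℤ) = -c' := rfl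
    have e11 : (γ₀ 1 1 : ℤ) = D' * a := rfl
    simp only [e00, e01, e10, e11] at hden ⊢
    push_cast at hden ⊢
    refine hermite_alg (a : ℂ) b c e x y c' D' g d _ σ τ ?_ ?_ ?_ ?_ ?_ hw hσ hden ?_
    · exact_mod_cast congrArg (fun z : ℤ => (z : ℂ)) hc'
    · exact_mod_cast congrArg (fun z : ℤ => (z : ℂ)) hD'
    · exact_mod_cast congrArg (fun z : ℤ => (z : ℂ)) hxy
    · exact_mod_cast congrArg (fun z : ℤ => (z : ℂ)) hdet
    · ring
    · exact_mod_cast hD'pos.ne'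

/-- The point `d * τ` of the upper half-plane. -/
noncomputable def scale (d : ℕ) (hd : 0 < d) (τ : ℍ) : ℍ :=
  ⟨(d : ℂ) * τ, by
    have h1 : ((d : ℂ) * (τ : ℂ)).im = d * τ.im := by simp
    rw [h1]
    exact mul_pos (by exact_mod_cast hd) τ.im_pos⟩

@[simp] lemma coe_scale (d : ℕ) (hd : 0 < d) (τ : ℍ) : ((scale d hd τ : ℍ) : ℂ) = d * τ := rfl

/-- The point `(g * τ + B) / D` of the upper half-plane. -/
noncomputable def aff (g D : ℕ) (B : ℤ) (hg : 0 < g) (hD : 0 < D) (τ : ℍ) : ℍ :=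
  ⟨((g : ℂ) * τ + B) / D, by
    have h1 : (((g : ℂ) * τ + B) / D).im = g * τ.im / D := by
      rw [Complex.div_natCast_im]; simp
    rw [h1]
    exact div_pos (mul_pos (by exact_mod_cast hg) τ.im_pos) (by exact_mod_cast hD)⟩

@[simp] lemma coe_aff (g D : ℕ) (B : ℤ) (hg : 0 < g) (hD : 0 < D) (τ : ℍ) :
    ((aff g D B hg hD τ : ℍ) : ℂ) = ((g : ℂ) * τ + B) / D := rfl

lemma im_aff (g D : ℕ) (B : ℤ) (hg : 0 < g) (hD : 0 < D) (τ : ℍ) :
    (aff g D B hg hD τ).im = g * τ.im / D := by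
  show (((g : ℂ) * τ + B) / D).im = g * τ.im / D
  rw [Complex.div_natCast_im]; simp

lemma tendsto_aff (g D : ℕ) (B : ℤ) (hg : 0 < g) (hD : 0 < D) :
    Tendsto (aff g D B hg hD) atImInfty atImInfty := by
  rw [atImInfty, tendsto_comap_iff]
  have h1 : (UpperHalfPlane.im ∘ aff g D B hg hD) = fun τ : ℍ => (g : ℝ) / D * τ.im := by
    funext τ
    simp only [Function.comp_apply, im_aff]
    ring
  rw [h1]
  exact Tendsto.const_mul_atTop (div_pos (by exact_mod_cast hg) (by exact_mod_cast hD))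
    tendsto_comap

lemma jj_smul (γ : SL(2, ℤ)) (τ : ℍ) : jj (γ • τ) = jj τ := by
  have hγ : (γ : GL (Fin 2) ℝ) ∈ 𝒮ℒ := ⟨γ, rfl⟩
  have h4 : E₄ (γ • τ) = denom γ τ ^ (4 : ℤ) * E₄ τ :=
    SlashInvariantForm.slash_action_eqn'' E₄ hγ τ
  have h12 : Δ (γ • τ) = denom γ τ ^ (12 : ℤ) * Δ τ :=
    SlashInvariantForm.slash_action_eqn'' CuspForm.discriminant hγ τ
  rw [jj_def, jj_def, h4, h12]
  have hd : denom γ τ ≠ 0 := denom_ne_zero γ τ
  have hΔ := discriminant_ne_zero τ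
  have e12 : denom γ τ ^ (12 : ℤ) = (denom γ τ ^ (4 : ℤ)) ^ 3 := by
    rw [← zpow_natCast, ← zpow_mul]; norm_num
  rw [e12, mul_pow]
  field_simp

/-- `j (d * (γ • τ))` is `j ((g τ + B) / D)` for suitable `g, D, B` (independent of `τ`). -/
theorem exists_jj_scale_smul_eq (d : ℕ) (hd : 0 < d) (γ : SL(2, ℤ)) :
    ∃ (g D : ℕ) (B : ℤ) (hg : 0 < g) (hD : 0 < D), g * D = d ∧ g = Int.gcd (γ 1 0) d ∧
      ∀ τ : ℍ, jj (scale d hd (γ • τ)) = jj (aff g D B hg hD τ) := by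
  obtain ⟨γ₀, g, D, B, hg, hD, hgD, hgcd, h⟩ := exists_hermite d hd γ
  refine ⟨g, D, B, hg, hD, hgD, hgcd, fun τ => ?_⟩
  rw [← jj_smul γ₀ (scale d hd (γ • τ))]
  congr 1
  apply UpperHalfPlane.ext
  rw [h τ (scale d hd (γ • τ)) rfl]
  rfl

lemma tendsto_norm_jj_aff (g D : ℕ) (B : ℤ) (hg : 0 < g) (hD : 0 < D) :
    Tendsto (fun τ : ℍ => ‖jj (aff g D B hg hD τ)‖ * Real.exp (-2 * π * ((g : ℝ) / D) * τ.im))
      atImInfty (𝓝 1) := by
  have h := tendsto_norm_jj_mul_exp.comp (tendsto_aff g D B hg hD)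
  refine h.congr' (Filter.Eventually.of_forall fun τ => ?_)
  simp only [Function.comp_apply, im_aff]
  congr 2
  ring

/-- Growth bound: `j (d * (γ • τ)) = O(exp (2 π d Im τ))` at `i∞`. -/
theorem jj_scale_smul_isBigO (d : ℕ) (hd : 0 < d) (γ : SL(2, ℤ)) :
    (fun τ : ℍ => jj (scale d hd (γ • τ))) =O[atImInfty]
      fun τ : ℍ => Real.exp (2 * π * d * τ.im) := by
  obtain ⟨g, D, B, hg, hD, hgD, -, h⟩ := exists_jj_scale_smul_eq d hd γ
  have ht := tendsto_norm_jj_aff g D B hg hD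
  have hev : ∀ᶠ τ : ℍ in atImInfty,
      ‖jj (aff g D B hg hD τ)‖ * Real.exp (-2 * π * ((g : ℝ) / D) * τ.im) ≤ 2 :=
    ht.eventually (eventually_le_nhds (by norm_num : (1 : ℝ) < 2))
  refine Asymptotics.IsBigO.of_bound 2 (hev.mono fun τ hτ => ?_)
  rw [h τ, Real.norm_of_nonneg (Real.exp_pos _).le]
  have hgd : (g : ℝ) / D ≤ d := by
    have h1 : (1 : ℝ) ≤ D := by exact_mod_cast hD
    have h2 : (g : ℝ) ≤ d := by
      have : g ≤ d := by rw [← hgD]; exact Nat.le_mul_of_pos_right g hD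
      exact_mod_cast this
    have h3 : (0 : ℝ) ≤ g := by positivity
    calc (g : ℝ) / D ≤ g / 1 := by
          apply div_le_div_of_nonneg_left h3 one_pos h1
      _ = g := by simp
      _ ≤ d := h2
  have hpos := Real.exp_pos (2 * π * ((g : ℝ) / D) * τ.im)
  have e1 : Real.exp (-2 * π * ((g : ℝ) / D) * τ.im) = (Real.exp (2 * π * ((g : ℝ) / D) * τ.im))⁻¹ := by
    rw [← Real.exp_neg]; congr 1; ring
  rw [e1, ← div_eq_mul_inv, div_le_iff₀ hpos] at hτ
  refine hτ.trans (mul_le_mul_of_nonneg_left (Real.exp_le_exp.mpr ?_) (by norm_num))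
  have hτim := τ.im_pos
  have hpi := Real.pi_pos
  nlinarith [mul_le_mul_of_nonneg_right hgd (mul_pos hpi hτim).le]

lemma tendsto_norm_jj_scale (N : ℕ) (hN : 0 < N) :
    Tendsto (fun τ : ℍ => ‖jj (scale N hN τ)‖ * Real.exp (-2 * π * (N : ℝ) * τ.im))
      atImInfty (𝓝 1) := by
  have h := tendsto_norm_jj_aff N 1 0 hN one_pos
  refine h.congr' (Filter.Eventually.of_forall fun τ => ?_)
  have e1 : aff N 1 0 hN one_pos τ = scale N hN τ := by
    apply UpperHalfPlane.ext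
    simp
  rw [e1]
  simp

/-- **Distinctness of cosets.** If `j (N * (δ • τ)) = j (N * τ)` for all `τ`, then `δ ∈ Γ₀(N)`. -/
theorem mem_Gamma0_of_jj_scale_smul_eq (N : ℕ) (hN : 0 < N) (δ : SL(2, ℤ))
    (h : ∀ τ : ℍ, jj (scale N hN (δ • τ)) = jj (scale N hN τ)) : δ ∈ Gamma0 N := by
  obtain ⟨g, D, B, hg, hD, hgD, hgcd, hj⟩ := exists_jj_scale_smul_eq N hN δ
  -- it suffices to show `D = 1`
  suffices hD1 : D = 1 by
    rw [Gamma0_mem, ZMod.intCast_zmod_eq_zero_iff_dvd]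
    have hgN : g = N := by rw [← hgD, hD1, mul_one]
    have : (g : ℤ) ∣ δ 1 0 := by rw [hgcd]; exact Int.gcd_dvd_left _ _
    rwa [hgN] at this
  by_contra hD1
  have hD2 : 2 ≤ D := by omega
  -- the exponent gap
  set c : ℝ := (N : ℝ) - (g : ℝ) / D with hc
  have hcpos : 0 < c := by
    have h1 : (g : ℝ) ≤ N := by
      have : g ≤ N := by rw [← hgD]; exact Nat.le_mul_of_pos_right g hD
      exact_mod_cast this
    have h2 : (2 : ℝ) ≤ D := by exact_mod_cast hD2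
    have h3 : (0 : ℝ) < g := by exact_mod_cast hg
    have h4 : (g : ℝ) / D ≤ g / 2 := by
      apply div_le_div_of_nonneg_left h3.le (by norm_num) h2
    have : (g : ℝ) / 2 < g := by linarith
    linarith
  have hu := tendsto_norm_jj_aff g D B hg hD
  have hv := tendsto_norm_jj_scale N hN
  have hexp : Tendsto (fun τ : ℍ => Real.exp (2 * π * c * τ.im)) atImInfty atTop := by
    apply Real.tendsto_exp_atTop.comp
    have h1 : Tendsto (fun τ : ℍ => τ.im) atImInfty atTop := tendsto_comap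
    exact h1.const_mul_atTop (by positivity)
  have ev1 := hu.eventually (eventually_le_nhds (by norm_num : (1 : ℝ) < 2))
  have ev2 := hv.eventually (eventually_ge_nhds (by norm_num : (1 / 2 : ℝ) < 1))
  have ev3 := hexp.eventually (eventually_gt_atTop (4 : ℝ))
  obtain ⟨τ, h1, h2, h3⟩ := (ev1.and (ev2.and ev3)).exists
  rw [← hj τ, h τ] at h1
  have key : ‖jj (scale N hN τ)‖ * Real.exp (-2 * π * ((g : ℝ) / D) * τ.im)
      = ‖jj (scale N hN τ)‖ * Real.exp (-2 * π * (N : ℝ) * τ.im) * Real.exp (2 * π * c * τ.im) := by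
    have e2 : Real.exp (-2 * π * ((g : ℝ) / D) * τ.im)
        = Real.exp (-2 * π * (N : ℝ) * τ.im) * Real.exp (2 * π * c * τ.im) := by
      rw [← Real.exp_add]
      congr 1
      rw [hc]; ring
    rw [e2]; ring
  rw [key] at h1
  have hn : 0 ≤ ‖jj (scale N hN τ)‖ * Real.exp (-2 * π * (N : ℝ) * τ.im) := by positivity
  nlinarith

end H9157

end Fermat.Agent.S24
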